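import Fermat.Agent.S28.Char0.GenStep
import Fermat.Agent.S28.Kummer.Adapter
import Fermat.Agent.S28.TowerDefs

/-!
# S28, route T: generation for the reversed tower in `TD.FF` form (task D8)

`TD.FF ℚ (N' * p) m = ℚ(TD.FF ℚ N' (m * p), J(q^m))`, from the modular equations `TD.ModEq r`
for the primes `r ∣ N' * p`.  The proof is helper7's `Char0.adjoin_levelGens_mul_prime`; this file
only supplies the root list over `ℂ((t))` (from `Kummer.ModEqData.specialize_eq_prod`) and the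
dictionary between `Char0.levelGens` and `TD.FF`.
-/

set_option autoImplicit false

noncomputable section

namespace Fermat.Agent.S28.RouteT

open Polynomial ModularCurve IntermediateField

/-- The root list over `ℂ((t))` from the integral modular equation. -/
theorem char0ModEqData_of_TD {p : ℕ} [NeZero p] (hp : 1 < p) (D : TD.ModEq p) :
    Char0.ModEqData p D.Φ := by
  classical
  refine ⟨D.monic, D.natDegree_eq, ?_⟩
  -- a primitive `p`-th root of unity in `ℂ`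
  have hζ0 : IsPrimitiveRoot (Complex.exp (2 * Real.pi * Complex.I / p)) p :=
    Complex.isPrimitiveRoot_exp p (NeZero.ne p)
  have hζne : Complex.exp (2 * Real.pi * Complex.I / p) ≠ 0 := Complex.exp_ne_zero _
  set ζ : ℂˣ := Units.mk0 _ hζne with hζdef
  have hζ : IsPrimitiveRoot ζ p := by
    have : IsPrimitiveRoot (ζ : ℂ) p := hζ0
    exact IsPrimitiveRoot.coe_units_iff.mp this
  have hfac := (Kummer.ModEqData.ofTD D).specialize_eq_prod hp hζ (1 : ℂˣ) 1
  refine ⟨fun b => if h : b < p then Kummer.rootFam (p := p) ζ (1 : ℂˣ) 1 (some ⟨b, h⟩)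
    else 0, ?_, ?_, ?_⟩
  · have h0 : 0 < p := Nat.pos_of_ne_zero (NeZero.ne p)
    simp only [h0, dif_pos]
    show Kummer.JJ (ζ ^ (0 : ℕ) * 1) 1 = jqModC ℂ
    rw [pow_zero, one_mul, Kummer.JJ_one_one]
  · intro b hb
    simp only [hb, dif_pos]
    show (Kummer.JJ (ζ ^ b * 1) 1).coeff (-1) ≠ 0 ∧
      ∀ k : ℤ, k < -1 → (Kummer.JJ (ζ ^ b * 1) 1).coeff k = 0
    constructor
    · have h := Kummer.JJ_coeff_neg (ζ ^ b * 1) 1
      simp only [Nat.cast_one] at h
      rw [h]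
      exact Units.ne_zero _
    · intro k hk
      exact Kummer.JJ_coeff_of_lt (ζ ^ b * 1) 1 (by simpa using hk)
  · have hL : D.Φ.map (Char0.evalHom (qExpand ℂ p (jqModC ℂ))) =
        Kummer.specialize (Kummer.ModEqData.ofTD D).Φ (Kummer.JJ ((1 : ℂˣ) ^ p) (1 * p)) := by
      have hJ : Kummer.JJ ((1 : ℂˣ) ^ p) (1 * p) = qExpand ℂ p (jqModC ℂ) := by
        rw [one_pow, Kummer.JJ_one]
        exact qExpand_congr (one_mul p) _
      rw [hJ]
      rfl
    rw [hL, hfac, Fintype.prod_option]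
    congr 1
    · show X - C (Kummer.JJ (((1 : ℂˣ) ^ p) ^ p) (1 * p * p)) = _
      congr 2
      rw [one_pow, one_pow, Kummer.JJ_one]
      exact qExpand_congr (by ring) _
    · rw [← Fin.prod_univ_eq_prod_range (fun b => X - C (if h : b < p then
        Kummer.rootFam (p := p) ζ (1 : ℂˣ) 1 (some ⟨b, h⟩) else 0)) p]
      refine Finset.prod_congr rfl (fun b _ => ?_)
      simp only [b.2, dif_pos, Fin.eta]

/-- `Char0.levelGens` generates `TD.FF`. -/
theorem FF_eq_adjoin_levelGens (N m : ℕ) (hN : N ≠ 0) (hm : m ≠ 0) :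
    TD.FF ℚ N m = IntermediateField.adjoin ℚ (Char0.levelGens N m) := by
  unfold TD.FF
  congr 1
  ext x
  constructor
  · rintro ⟨d, hd, rfl⟩
    have hd0 : d ≠ 0 := fun h => hN (by have hd' : d ∣ N := hd; rw [h] at hd'; exact zero_dvd_iff.mp hd')
    have : NeZero (m * d) := ⟨Nat.mul_ne_zero hm hd0⟩
    exact ⟨d, ‹_›, hd, TD.Jd_rat (m * d)⟩
  · rintro ⟨d, hne, hd, rfl⟩
    exact ⟨d, hd, TD.Jd_rat (m * d)⟩

/-- **Task D8 in `TD.FF` form**: `F_{N' p}^(m) = F_{N'}^(m p)(J(q^m))`. -/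
theorem generation (N' p m : ℕ) (hN' : N' ≠ 0) (hm : m ≠ 0) (hp : p.Prime)
    (hME : ∀ r : ℕ, r.Prime → r ∣ N' * p → Nonempty (TD.ModEq r)) :
    TD.FF ℚ (N' * p) m = IntermediateField.adjoin ℚ
      ((TD.FF ℚ N' (m * p) : Set (LaurentSeries ℚ)) ∪ {TD.Jd ℚ m}) := by
  have : NeZero N' := ⟨hN'⟩
  have : NeZero p := ⟨hp.ne_zero⟩
  have : NeZero m := ⟨hm⟩
  have hΦ : ∀ r : ℕ, r.Prime → r ∣ N' * p →
      ∃ (_ : NeZero r) (Φ : Polynomial (Polynomial ℤ)), Char0.ModEqData r Φ := by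
    intro r hr hrd
    obtain ⟨D⟩ := hME r hr hrd
    have : NeZero r := ⟨hr.ne_zero⟩
    exact ⟨‹_›, D.Φ, char0ModEqData_of_TD hr.one_lt D⟩
  have h := Char0.adjoin_levelGens_mul_prime N' p m hp hΦ
  rw [FF_eq_adjoin_levelGens (N' * p) m (Nat.mul_ne_zero hN' hp.ne_zero) hm, h,
    FF_eq_adjoin_levelGens N' (m * p) hN' (Nat.mul_ne_zero hm hp.ne_zero)]
  have hJ : TD.Jd ℚ m = qExpand ℚ m jq := TD.Jd_rat m
  rw [hJ]
  refine le_antisymm ?_ ?_
  · rw [adjoin_le_iff]
    rintro x (rfl | hx)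
    · exact subset_adjoin ℚ _ (Or.inr rfl)
    · exact subset_adjoin ℚ _ (Or.inl (subset_adjoin ℚ _ hx))
  · rw [adjoin_le_iff]
    rintro x (hx | hx)
    · exact (adjoin.mono ℚ _ _ (Set.subset_insert _ _)) hx
    · rw [Set.mem_singleton_iff] at hx
      rw [hx]
      exact subset_adjoin ℚ _ (Set.mem_insert _ _)

end Fermat.Agent.S28.RouteT
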