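import Mathlib
import Fermat.Agent.S28.TowerDefs
import Fermat.Agent.S28.Tower

/-!
# S28, route T (reversed tower): the induction

For `N = N' * p` the field `FF ℚ N m = ℚ(J(q^(m d)) : d ∣ N)` is obtained from
`FF ℚ N' (m p)` by adjoining the single element `J(q^m)`; one application of `Tower.Good.step`
per prime factor of `N` (with multiplicity) gives the invariant `Tower.Good` for all `FF ℚ N m`.

This file is abstract in the Gauss ring `B`, the uniformiser `π` and the reduction map `red`
(instantiated elsewhere), and takes the three step inputs (char-0 step relation, mod-`ℓ`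
independence, char-0 generation) as hypotheses.
-/

set_option autoImplicit false

open ModularCurve

namespace Fermat.Agent.S28.RouteT

open Fermat.Agent.S28

variable {K : Type*} [Field K] {B : Subring (LaurentSeries ℚ)} {π : LaurentSeries ℚ}

/-- `Tower.Good` is monotone in the residue field. -/
theorem good_mono_res {k : Type*} [Field k] {L : Type*} [Field L] {B : Subring L} {π : L}
    {red : B →+* k} {A : Subring L} {F : Subfield L} {κ κ' : Subfield k}
    (h : Tower.Good B π red A F κ) (hκ : κ ≤ κ') : Tower.Good B π red A F κ' :=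
  ⟨h.pi_mem, h.bounded, fun y hy => hκ (h.red_mem y hy), h.integral⟩

/-- `FF K N' (m * p) ≤ FF K (N' * p) m`. -/
theorem FF_le_FF_mul (K : Type*) [Field K] (N' p m : ℕ) :
    TD.FF K N' (m * p) ≤ TD.FF K (N' * p) m := by
  unfold TD.FF
  apply IntermediateField.adjoin.mono
  rintro _ ⟨d, hd, rfl⟩
  refine ⟨p * d, ?_, ?_⟩
  · show p * d ∣ N' * p
    rw [mul_comm N' p]
    exact Nat.mul_dvd_mul_left p hd
  · show TD.Jd K (m * (p * d)) = TD.Jd K (m * p * d)
    rw [mul_assoc]

/-- `J(q^m) ∈ FF K N m`. -/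
theorem Jd_mem_FF_self (K : Type*) [Field K] (N m : ℕ) : TD.Jd K m ∈ TD.FF K N m := by
  have h := TD.Jd_mem_FF K (N := N) (m := m) (one_dvd N)
  rwa [mul_one] at h

/-- The subfield generated by an intermediate field and one more element. -/
theorem closure_union_eq_adjoin {F E : Type*} [Field F] [Field E] [Algebra F E]
    (M : IntermediateField F E) (x : E) :
    Subfield.closure ((M.toSubfield : Set E) ∪ {x})
      = (IntermediateField.adjoin F ((M : Set E) ∪ {x})).toSubfield := by
  rw [IntermediateField.adjoin_toSubfield]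
  congr 1
  have h : Set.range (algebraMap F E) ⊆ (M : Set E) ∪ {x} := by
    rintro _ ⟨a, rfl⟩
    exact Or.inl (M.algebraMap_mem a)
  rw [Set.union_eq_self_of_subset_left h]
  rfl

/-- **Route T induction.** -/
theorem good_FF (red : B →+* LaurentSeries K) (hπ : π ∈ B) (hπ0 : π ≠ 0)
    (hker : ∀ y : B, red y = 0 ↔ ∃ z : B, (y : LaurentSeries ℚ) = π * z)
    (hJ : ∀ e : ℕ, e ≠ 0 → TD.Jd ℚ e ∈ B)
    (hredJ : ∀ (e : ℕ) (he : e ≠ 0), red ⟨TD.Jd ℚ e, hJ e he⟩ = TD.Jd K e)
    (A : ℕ → Subring (LaurentSeries ℚ))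
    (hbase : ∀ e : ℕ, e ≠ 0 →
      Tower.Good B π red (A e) (TD.FF ℚ 1 e).toSubfield (TD.FF K 1 e).toSubfield)
    (N : ℕ)
    (hdeg : ∀ N' p m : ℕ, p.Prime → N' * p ∣ N → m ≠ 0 →
      ∃ a : Fin (if p ∣ N' then p else p + 1) → LaurentSeries ℚ,
        (∀ t, a t ∈ TD.FF ℚ N' (m * p)) ∧
        TD.Jd ℚ m ^ (if p ∣ N' then p else p + 1) = ∑ t, a t * TD.Jd ℚ m ^ (t : ℕ))
    (hind : ∀ N' p m : ℕ, p.Prime → N' * p ∣ N → m ≠ 0 →
      ∀ c : Fin (if p ∣ N' then p else p + 1) → LaurentSeries K,
        (∀ t, c t ∈ TD.FF K N' (m * p)) → ∑ t, c t * TD.Jd K m ^ (t : ℕ) = 0 → ∀ t, c t = 0)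
    (hgen : ∀ N' p m : ℕ, p.Prime → N' * p ∣ N → m ≠ 0 →
      TD.FF ℚ (N' * p) m = IntermediateField.adjoin ℚ
        ((TD.FF ℚ N' (m * p) : Set (LaurentSeries ℚ)) ∪ {TD.Jd ℚ m})) :
    ∀ n : ℕ, n ≠ 0 → n ∣ N → ∀ m : ℕ, m ≠ 0 →
      Tower.Good B π red (A (m * n)) (TD.FF ℚ n m).toSubfield (TD.FF K n m).toSubfield := by
  intro n
  induction n using Nat.strong_induction_on with
  | _ n ih =>
    intro hn hnN m hm
    by_cases h1 : n = 1
    · subst h1
      have := hbase m hm
      rwa [mul_one]
    · -- peel the smallest prime factor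
      set p := n.minFac with hp_def
      have hp : p.Prime := Nat.minFac_prime h1
      obtain ⟨n', hn'⟩ : ∃ n', n = n' * p := ⟨n / p, (Nat.div_mul_cancel (Nat.minFac_dvd n)).symm⟩
      have hn'0 : n' ≠ 0 := by
        rintro rfl
        exact hn (by rw [hn', zero_mul])
      have hn'lt : n' < n := by
        rw [hn']
        exact lt_mul_of_one_lt_right (Nat.pos_of_ne_zero hn'0) hp.one_lt
      have hn'N : n' ∣ N := (Dvd.intro _ hn'.symm).trans hnN
      have hdvd : n' * p ∣ N := hn' ▸ hnN
      have hmp : m * p ≠ 0 := Nat.mul_ne_zero hm hp.ne_zero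
      have hG := ih n' hn'lt hn'0 hn'N (m * p) hmp
      have hx : TD.Jd ℚ m ∈ B := hJ m hm
      have hstep := hG.step hπ hπ0 hker hx (n := if p ∣ n' then p else p + 1)
        (by
          obtain ⟨a, ha, hrel⟩ := hdeg n' p m hp hdvd hm
          exact ⟨a, ha, hrel⟩)
        (by
          intro c hc hsum
          rw [hredJ m hm] at hsum
          exact hind n' p m hp hdvd hm c hc hsum)
      rw [hredJ m hm] at hstep
      -- rewrite the field
      have hF : Subfield.closure (((TD.FF ℚ n' (m * p)).toSubfield : Set (LaurentSeries ℚ))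
          ∪ {TD.Jd ℚ m}) = (TD.FF ℚ n m).toSubfield := by
        rw [closure_union_eq_adjoin, hn', hgen n' p m hp hdvd hm]
      rw [hF] at hstep
      have hA : m * p * n' = m * n := by rw [hn']; ring
      rw [hA] at hstep
      refine good_mono_res hstep ?_
      rw [Subfield.closure_le]
      rintro y (hy | hy)
      · have := FF_le_FF_mul K n' p m hy
        rw [hn']
        exact this
      · rw [Set.mem_singleton_iff] at hy
        rw [hy]
        exact Jd_mem_FF_self K n m

end Fermat.Agent.S28.RouteT
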