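import Mathlib
import Fermat.Agent.S28.Tower

/-!
# S28, route T: change of base ring for the integrality invariant (abstract)

The reversed tower gives: every `y ∈ F ∩ B` is integral over `O_N ⊆ F₀N ∩ B`
(`F₀N = ℚ(j_N)`).  The chart statements need integrality over `O₁ = ℚ(j) ∩ B`.  This file does
the transfer abstractly:

* `R1`, `RN` subrings (instances: `ℤ_(ℓ)[j]`, `ℤ_(ℓ)[j_N]`) over which integrality is the same
  notion (`j`, `j_N` integral over each other), `RN` integrally closed in `F₀N` and saturated;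
* every `y ∈ F` has a multiple `π^k * (D' * y)` integral over `R1` with `D'` a unit of `B`
  whose inverse lies in `O1`.
-/

set_option autoImplicit false

namespace Fermat.Agent.S28.RouteT

open Fermat.Agent.S28

variable {L : Type*} [Field L] {B : Subring L} {π : L}

/-- Integrality over a subring implies integrality over a bigger subring. -/
theorem isIntegral_of_le {S T : Subring L} (h : S ≤ T) {y : L} (hy : IsIntegral S y) :
    IsIntegral T y :=
  hy.map_of_comp_eq (Subring.inclusion h) (RingHom.id L) (by ext; rfl)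

/-- An element of a subring is integral over it. -/
theorem isIntegral_of_mem {T : Subring L} {y : L} (hy : y ∈ T) : IsIntegral T y :=
  isIntegral_algebraMap (R := T) (x := ⟨y, hy⟩)

/-- Saturation for `R1` from the tower over `F₀N`: if `y ∈ B` is integral over `ON` and
`π * y` is integral over `R1`, then `y` is integral over `R1`. -/
theorem isIntegral_R1_of_pi_mul (hπ : π ∈ B) (hπ0 : π ≠ 0)
    (hinv : ∀ y ∈ B, (∀ z ∈ B, y ≠ π * z) → y⁻¹ ∈ B) (hπinv : π⁻¹ ∉ B)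
    {F₀N : Subfield L} (hπFN : π ∈ F₀N) (hbN : ∀ y ∈ F₀N, ∃ n : ℕ, π ^ n * y ∈ B)
    {ON RN : Subring L} (hRNF : ∀ a ∈ RN, a ∈ F₀N) (hONF : ∀ a ∈ ON, a ∈ F₀N) (hONB : ON ≤ B)
    (hRN_ic : ∀ z ∈ F₀N, IsIntegral RN z → z ∈ RN) (hRN_sat : ∀ z ∈ B, π * z ∈ RN → z ∈ RN)
    {R1 : Subring L}
    (h1N : ∀ y : L, IsIntegral R1 y → IsIntegral RN y)
    (hN1 : ∀ y : L, IsIntegral RN y → IsIntegral R1 y)
    {y : L} (hy : IsIntegral ON y) (hπy : IsIntegral R1 (π * y)) : IsIntegral R1 y :=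
  hN1 y (Tower.isIntegral_of_isIntegral_pi_mul hπ hπ0 hinv hπinv hπFN hbN hRNF hONF hONB
    hRN_ic hRN_sat hy (h1N _ hπy))

/-- **Change of base.** From integrality of `F ∩ B` over `ON` to integrality over `O1`. -/
theorem integral_over_O1 (hπ : π ∈ B) (hπ0 : π ≠ 0)
    (hinv : ∀ y ∈ B, (∀ z ∈ B, y ≠ π * z) → y⁻¹ ∈ B) (hπinv : π⁻¹ ∉ B)
    {F₀N : Subfield L} (hπFN : π ∈ F₀N) (hbN : ∀ y ∈ F₀N, ∃ n : ℕ, π ^ n * y ∈ B)
    {ON RN : Subring L} (hRNF : ∀ a ∈ RN, a ∈ F₀N) (hONF : ∀ a ∈ ON, a ∈ F₀N) (hONB : ON ≤ B)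
    (hRN_ic : ∀ z ∈ F₀N, IsIntegral RN z → z ∈ RN) (hRN_sat : ∀ z ∈ B, π * z ∈ RN → z ∈ RN)
    {R1 O1 : Subring L} (hR1O1 : R1 ≤ O1)
    (h1N : ∀ y : L, IsIntegral R1 y → IsIntegral RN y)
    (hN1 : ∀ y : L, IsIntegral RN y → IsIntegral R1 y)
    {F : Subfield L} (hπF : π ∈ F)
    (hden : ∀ y ∈ F, ∃ (k : ℕ) (D' : L), D' ∈ B ∧ D' ∈ F ∧ D' ≠ 0 ∧ D'⁻¹ ∈ O1 ∧
      IsIntegral R1 (π ^ k * (D' * y)))
    (hF : ∀ y ∈ F, y ∈ B → IsIntegral ON y) :
    ∀ y ∈ F, y ∈ B → IsIntegral O1 y := by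
  intro y hyF hyB
  obtain ⟨k, D', hD'B, hD'F, hD'0, hD'inv, hint⟩ := hden y hyF
  have hzF : D' * y ∈ F := F.mul_mem hD'F hyF
  have hzB : D' * y ∈ B := B.mul_mem hD'B hyB
  -- strip the powers of π
  have key : ∀ j : ℕ, IsIntegral R1 (π ^ j * (D' * y)) → IsIntegral R1 (D' * y) := by
    intro j
    induction j with
    | zero => intro h; simpa using h
    | succ j ih =>
      intro h
      apply ih
      have hmemF : π ^ j * (D' * y) ∈ F := F.mul_mem (F.pow_mem hπF j) hzF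
      have hmemB : π ^ j * (D' * y) ∈ B := B.mul_mem (B.pow_mem hπ j) hzB
      refine isIntegral_R1_of_pi_mul hπ hπ0 hinv hπinv hπFN hbN hRNF hONF hONB hRN_ic hRN_sat
        h1N hN1 (hF _ hmemF hmemB) ?_
      rwa [← mul_assoc, ← pow_succ']
  have hz : IsIntegral O1 (D' * y) := isIntegral_of_le hR1O1 (key k hint)
  have hy : y = D'⁻¹ * (D' * y) := by
    rw [← mul_assoc, inv_mul_cancel₀ hD'0, one_mul]
  rw [hy]
  exact (isIntegral_of_mem hD'inv).mul hz

end Fermat.Agent.S28.RouteT
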