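import Fermat.Agent.S28.GaussBase
import Fermat.Agent.S28.TensorRed
import Fermat.Agent.S28.RouteT.Induction
import Fermat.Agent.S28.RouteT.BaseChange
import Fermat.Agent.S28.RouteT.Gen
import Fermat.Agent.S28.StepModL
import Fermat.Agent.S28.Char0Bridge
import Fermat.Agent.S28.Integrality

/-!
# S28, route T (reversed tower): assembly

From the modular equations `TD.ModEq r` and the base cases `TD.BaseCase r` for the primes
`r ∣ N` to the `q`-expansion principle for the charts `{j}` and `{j⁻¹}` of level `N`.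
-/

set_option autoImplicit false

noncomputable section

namespace Fermat.Agent.S28.RouteT

open ModularCurve ModularCurve.IgusaScheme Polynomial
open Fermat.Agent.S28.GaussBase

section Concrete

variable (ℓ : ℕ) [hℓ : Fact ℓ.Prime] (K : Type) [Field K]
  [Algebra (GaloisRep.ratLocalizedAt ℓ) K] [CharP K ℓ]

omit hℓ [CharP K ℓ] in
/-- `J(q^e)` lies in the Gauss ring. -/
theorem Jd_mem_gaussRing (e : ℕ) (he : e ≠ 0) : TD.Jd ℚ e ∈ gaussRing ℓ K := by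
  have : NeZero e := ⟨he⟩
  rw [TD.Jd_rat e]
  exact qExpand_jq_mem ℓ K e

/-- `J(q^e)` as an element of the Gauss ring. -/
def JdB (e : ℕ) (he : e ≠ 0) : gaussRing ℓ K := ⟨TD.Jd ℚ e, Jd_mem_gaussRing ℓ K e he⟩

omit hℓ [CharP K ℓ] in
theorem red_JdB (e : ℕ) (he : e ≠ 0) : red ℓ K (JdB ℓ K e he) = TD.Jd K e := by
  have : NeZero e := ⟨he⟩
  rw [TD.Jd_eq K e, ← red_qExpand_jq ℓ K e]
  congr 1
  exact Subtype.ext (TD.Jd_rat e)

omit hℓ [Algebra (GaloisRep.ratLocalizedAt ℓ) K] [CharP K ℓ] in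
/-- `J̄(q^e)` is transcendental over `K`. -/
theorem eq_zero_of_eval₂_Jd (e : ℕ) (he : e ≠ 0) (p : K[X])
    (h : p.eval₂ (HahnSeries.C : K →+* LaurentSeries K) (TD.Jd K e) = 0) : p = 0 := by
  have : NeZero e := ⟨he⟩
  apply eq_zero_of_eval₂_jqModC K p
  apply qExpand_injective (R := K) e
  rw [map_zero, Polynomial.hom_eval₂]
  have hc : (qExpand K e).comp (HahnSeries.C : K →+* LaurentSeries K) = HahnSeries.C := by
    ext a : 1
    exact qExpand_C e a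
  rw [hc, ← TD.Jd_eq K e]
  exact h

omit hℓ [CharP K ℓ] in
theorem htrans_JdB (e : ℕ) (he : e ≠ 0) :
    ∀ p : K[X], p.eval₂ HahnSeries.C (red ℓ K (JdB ℓ K e he)) = 0 → p = 0 := by
  rw [red_JdB]
  exact eq_zero_of_eval₂_Jd K e he

/-- `FF κ 1 e = κ(J(q^e))`. -/
theorem FF_one (κ : Type*) [Field κ] (e : ℕ) :
    TD.FF κ 1 e = IntermediateField.adjoin κ ({TD.Jd κ e} : Set (LaurentSeries κ)) := by
  unfold TD.FF
  congr 1
  ext x
  constructor
  · rintro ⟨d, hd, rfl⟩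
    have hd1 : d = 1 := Nat.dvd_one.mp hd
    subst hd1
    show TD.Jd κ (e * 1) ∈ _
    rw [mul_one]
    exact Set.mem_singleton _
  · intro hx
    rw [Set.mem_singleton_iff] at hx
    refine ⟨1, one_dvd 1, ?_⟩
    show TD.Jd κ (e * 1) = x
    rw [hx, mul_one]

/-- The base of the reversed tower: the field `ℚ(J(q^e))`. -/
theorem good_base_Jd (e : ℕ) (he : e ≠ 0) :
    Tower.Good (gaussRing ℓ K) (ℓ : LaurentSeries ℚ) (red ℓ K)
      ((TD.FF ℚ 1 e).toSubfield.toSubring ⊓ gaussRing ℓ K)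
      (TD.FF ℚ 1 e).toSubfield (TD.FF K 1 e).toSubfield := by
  have h := good_base ℓ K (JdB ℓ K e he) (htrans_JdB ℓ K e he)
  rw [FF_one ℚ e]
  refine good_mono_res h ?_
  rw [Subfield.closure_le, Set.singleton_subset_iff, red_JdB]
  exact Jd_mem_FF_self K 1 e

/-- **The reversed tower**: the invariant `Tower.Good` at the field `FF ℚ N 1` (the full modular
function field of level `N`), with base ring `ℚ(J(q^N)) ∩ B`. -/
theorem good_FF_level (N : ℕ) (hN : N ≠ 0) (hNK : (N : K) ≠ 0)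
    (hME : ∀ r : ℕ, r.Prime → r ∣ N → Nonempty (TD.ModEq r))
    (hBC : ∀ r : ℕ, r.Prime → r ∣ N → TD.BaseCase r) :
    Tower.Good (gaussRing ℓ K) (ℓ : LaurentSeries ℚ) (red ℓ K)
      ((TD.FF ℚ 1 N).toSubfield.toSubring ⊓ gaussRing ℓ K)
      (TD.FF ℚ N 1).toSubfield (TD.FF K N 1).toSubfield := by
  have hdeg : ∀ N' p m : ℕ, p.Prime → N' * p ∣ N → m ≠ 0 →
      ∃ a : Fin (if p ∣ N' then p else p + 1) → LaurentSeries ℚ,
        (∀ t, a t ∈ TD.FF ℚ N' (m * p)) ∧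
        TD.Jd ℚ m ^ (if p ∣ N' then p else p + 1) = ∑ t, a t * TD.Jd ℚ m ^ (t : ℕ) := by
    intro N' p m hp hdvd hm
    obtain ⟨D⟩ := hME p hp (dvd_of_mul_left_dvd hdvd)
    obtain ⟨a, -, ha, hrel⟩ := Char0Bridge.step_TD D hp.one_lt N' hm
    exact ⟨a, ha, hrel⟩
  have hgen : ∀ N' p m : ℕ, p.Prime → N' * p ∣ N → m ≠ 0 →
      TD.FF ℚ (N' * p) m = IntermediateField.adjoin ℚ
        ((TD.FF ℚ N' (m * p) : Set (LaurentSeries ℚ)) ∪ {TD.Jd ℚ m}) := by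
    intro N' p m hp hdvd hm
    have hN' : N' ≠ 0 := by
      rintro rfl
      rw [zero_mul] at hdvd
      exact hN (Nat.eq_zero_of_zero_dvd hdvd)
    exact generation N' p m hN' hm hp (fun r hr hrd => hME r hr (hrd.trans hdvd))
  have h := good_FF (K := K) (B := gaussRing ℓ K) (π := (ℓ : LaurentSeries ℚ)) (red ℓ K)
    (natCast_ell_mem_gaussRing ℓ K) (natCast_ell_ne_zero' ℓ) (red_eq_zero_iff ℓ K)
    (Jd_mem_gaussRing ℓ K) (red_JdB ℓ K)
    (fun e => (TD.FF ℚ 1 e).toSubfield.toSubring ⊓ gaussRing ℓ K)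
    (good_base_Jd ℓ K) N hdeg (StepModL.hind_of_level K N hN hNK hME hBC) hgen
    N hN dvd_rfl 1 one_ne_zero
  rwa [one_mul] at h

omit hℓ [Field K] [Algebra (GaloisRep.ratLocalizedAt ℓ) K] [CharP K ℓ] in
/-- `R[x] ⊆ ℚ(x)`. -/
theorem polyRing_le_adjoin (x : LaurentSeries ℚ) :
    ∀ a ∈ polyRing ℓ x, a ∈ IntermediateField.adjoin ℚ ({x} : Set (LaurentSeries ℚ)) := by
  intro a ha
  obtain ⟨p, rfl⟩ := (mem_polyRing_iff ℓ _ _).mp ha
  rw [← algebraMap_eq_C, ← Polynomial.aeval_def]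
  exact IntermediateField.algebra_adjoin_le_adjoin ℚ _
    (Polynomial.aeval_mem_adjoin_singleton ℚ _)

omit hℓ [Field K] [Algebra (GaloisRep.ratLocalizedAt ℓ) K] [CharP K ℓ] in
/-- `R[x]` is the subring generated by the constants of `R` and `x`. -/
theorem polyRing_eq_closure (x : LaurentSeries ℚ) :
    polyRing ℓ x = Subring.closure
      ((((HahnSeries.C : ℚ →+* LaurentSeries ℚ).comp
        (GaloisRep.ratLocalizedAt ℓ).subtype).range : Set (LaurentSeries ℚ)) ∪ {x}) := by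
  have hx : x ∈ Subring.closure
      ((((HahnSeries.C : ℚ →+* LaurentSeries ℚ).comp
        (GaloisRep.ratLocalizedAt ℓ).subtype).range : Set (LaurentSeries ℚ)) ∪ {x}) :=
    Subring.subset_closure (Set.mem_union_right _ rfl)
  have hc : ∀ r : GaloisRep.ratLocalizedAt ℓ,
      ((HahnSeries.C : ℚ →+* LaurentSeries ℚ).comp (GaloisRep.ratLocalizedAt ℓ).subtype) r ∈
      Subring.closure
      ((((HahnSeries.C : ℚ →+* LaurentSeries ℚ).comp
        (GaloisRep.ratLocalizedAt ℓ).subtype).range : Set (LaurentSeries ℚ)) ∪ {x}) :=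
    fun r => Subring.subset_closure (Set.mem_union_left _ ⟨r, rfl⟩)
  apply le_antisymm
  · rintro y ⟨p, rfl⟩
    rw [Polynomial.coe_eval₂RingHom, Polynomial.eval₂_eq_sum_range]
    exact Subring.sum_mem _ (fun i _ => Subring.mul_mem _ (hc _) (Subring.pow_mem _ hx i))
  · rw [Subring.closure_le]
    rintro y (⟨r, rfl⟩ | hy)
    · exact ⟨Polynomial.C r, Polynomial.eval₂_C _ _⟩
    · rw [Set.mem_singleton_iff] at hy
      subst hy
      exact ⟨Polynomial.X, Polynomial.eval₂_X _ _⟩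

omit hℓ [Field K] [Algebra (GaloisRep.ratLocalizedAt ℓ) K] [CharP K ℓ] in
/-- `R[J(q^N)]` and `R[J(q)]` have the same integral elements. -/
theorem isIntegral_polyRing_Jd_iff (N : ℕ) (hN : N ≠ 0)
    (hME : ∀ r : ℕ, r.Prime → r ∣ N → Nonempty (TD.ModEq r)) (y : LaurentSeries ℚ) :
    IsIntegral (polyRing ℓ (TD.Jd ℚ N)) y ↔ IsIntegral (polyRing ℓ (TD.Jd ℚ 1)) y := by
  have h := Integrality.isIntegral_closure_Jd_iff ℚ
    ((HahnSeries.C : ℚ →+* LaurentSeries ℚ).comp (GaloisRep.ratLocalizedAt ℓ).subtype).range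
    N hN hME 1 one_ne_zero y
  rw [one_mul] at h
  rw [polyRing_eq_closure, polyRing_eq_closure]
  exact h

/-- Content decomposition in `R[x]`: a nonzero element is `ℓ^k` times an element of `R[x]` which
is a unit of the Gauss ring. -/
theorem exists_pow_mul_unit (x : gaussRing ℓ K)
    (htrans : ∀ p : K[X], p.eval₂ HahnSeries.C (red ℓ K x) = 0 → p = 0)
    {D : LaurentSeries ℚ} (hD : D ∈ polyRing ℓ (x : LaurentSeries ℚ)) (hD0 : D ≠ 0) :
    ∃ (k : ℕ) (D' : LaurentSeries ℚ), D = (ℓ : LaurentSeries ℚ) ^ k * D' ∧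
      D' ∈ polyRing ℓ (x : LaurentSeries ℚ) ∧ D'⁻¹ ∈ gaussRing ℓ K := by
  have hl0 : (ℓ : LaurentSeries ℚ) ≠ 0 := natCast_ell_ne_zero' ℓ
  have hlB : (ℓ : LaurentSeries ℚ) ∈ gaussRing ℓ K := natCast_ell_mem_gaussRing ℓ K
  have hDB : D ∈ gaussRing ℓ K := polyRing_le ℓ K x hD
  -- the powers of `ℓ` dividing `D` in `B` are bounded
  obtain ⟨n, hn⟩ := exists_pow_mul_mem_gaussRing ℓ K x htrans
    (inv_mem (polyRing_le_adjoin ℓ (x : LaurentSeries ℚ) D hD))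
  have hbound : ∀ k : ℕ, (∃ z ∈ gaussRing ℓ K, D = (ℓ : LaurentSeries ℚ) ^ k * z) → k ≤ n := by
    rintro k ⟨z, hz, hDz⟩
    by_contra hk
    rw [not_le] at hk
    obtain ⟨d, rfl⟩ : ∃ d, k = n + 1 + d := ⟨k - (n + 1), by omega⟩
    apply ell_inv_not_mem_gaussRing ℓ K
    have h1 : (ℓ : LaurentSeries ℚ)⁻¹ =
        (ℓ : LaurentSeries ℚ) ^ d * (((ℓ : LaurentSeries ℚ) ^ n * D⁻¹) * z) := by
      apply inv_eq_of_mul_eq_one_right
      have : (ℓ : LaurentSeries ℚ) * ((ℓ : LaurentSeries ℚ) ^ d *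
          (((ℓ : LaurentSeries ℚ) ^ n * D⁻¹) * z)) =
          D⁻¹ * ((ℓ : LaurentSeries ℚ) ^ (n + 1 + d) * z) := by ring
      rw [this, ← hDz, inv_mul_cancel₀ hD0]
    rw [h1]
    exact mul_mem (pow_mem hlB d) (mul_mem hn hz)
  -- take the largest such power
  have hex : ∃ k : ℕ, (∃ z ∈ gaussRing ℓ K, D = (ℓ : LaurentSeries ℚ) ^ k * z) ∧
      ¬ (∃ z ∈ gaussRing ℓ K, D = (ℓ : LaurentSeries ℚ) ^ (k + 1) * z) := by
    by_contra hcon
    have hall : ∀ k : ℕ, ∃ z ∈ gaussRing ℓ K, D = (ℓ : LaurentSeries ℚ) ^ k * z := by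
      intro k
      induction k with
      | zero => exact ⟨D, hDB, by rw [pow_zero, one_mul]⟩
      | succ k ih =>
        by_contra hnot
        exact hcon ⟨k, ih, hnot⟩
    have := hbound (n + 1) (hall (n + 1))
    omega
  obtain ⟨k, ⟨z, hz, hDz⟩, hmax⟩ := hex
  refine ⟨k, z, hDz, ?_, ?_⟩
  · exact Tower.mem_of_pow_mul_mem hlB (polyRing_sat ℓ K x htrans) k z hz (hDz ▸ hD)
  · apply inv_mem_gaussRing ℓ K hz
    intro w hw hzw
    apply hmax
    refine ⟨w, hw, ?_⟩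
    rw [hDz, hzw, pow_succ, mul_assoc]

omit hℓ [Field K] [Algebra (GaloisRep.ratLocalizedAt ℓ) K] [CharP K ℓ] in
/-- Every element of `FF ℚ N 1` is algebraic over `R[J]`. -/
theorem isAlgebraic_of_mem_FF (N : ℕ) (hN : N ≠ 0)
    (hME : ∀ r : ℕ, r.Prime → r ∣ N → Nonempty (TD.ModEq r)) {y : LaurentSeries ℚ}
    (hy : y ∈ TD.FF ℚ N 1) : IsAlgebraic (polyRing ℓ (TD.Jd ℚ 1)) y := by
  unfold TD.FF at hy
  induction hy using IntermediateField.adjoin_induction with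
  | mem x hx =>
    obtain ⟨d, hd, rfl⟩ := hx
    have h := (Integrality.isIntegral_Jd_dvd ℚ N hN hME 1 one_ne_zero hd).2
    have hle : Subring.closure ({TD.Jd ℚ 1} : Set (LaurentSeries ℚ)) ≤
        polyRing ℓ (TD.Jd ℚ 1) := by
      rw [Subring.closure_le, Set.singleton_subset_iff]
      exact ⟨Polynomial.X, Polynomial.eval₂_X _ _⟩
    exact (isIntegral_of_le hle h).isAlgebraic
  | algebraMap c =>
    have h1 : ∀ n : ℤ, IsAlgebraic (polyRing ℓ (TD.Jd ℚ 1)) ((n : LaurentSeries ℚ)) := fun n =>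
      isAlgebraic_algebraMap
        (⟨(n : LaurentSeries ℚ), intCast_mem _ n⟩ : polyRing ℓ (TD.Jd ℚ 1))
    have hc : algebraMap ℚ (LaurentSeries ℚ) c =
        ((c.num : ℤ) : LaurentSeries ℚ) * (((c.den : ℤ)) : LaurentSeries ℚ)⁻¹ := by
      conv_lhs => rw [← Rat.num_div_den c]
      rw [map_div₀, map_intCast, map_natCast, div_eq_mul_inv, Int.cast_natCast]
    rw [hc]
    exact (h1 _).mul (h1 _).inv
  | add x y _ _ hx hy => exact hx.add hy
  | inv x _ hx => exact hx.inv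
  | mul x y _ _ hx hy => exact hx.mul hy

omit hℓ [Field K] [Algebra (GaloisRep.ratLocalizedAt ℓ) K] [CharP K ℓ] in
theorem Jd_one_rat : TD.Jd ℚ 1 = jq := by
  rw [TD.Jd_rat 1, qExpand_one_apply]

/-- Denominators: every `y ∈ FF ℚ N 1` has a multiple `ℓ^k * (D' * y)` integral over `R[J]`, with
`D' ∈ R[J]` a unit of the Gauss ring. -/
theorem exists_den (N : ℕ) (hN : N ≠ 0)
    (hME : ∀ r : ℕ, r.Prime → r ∣ N → Nonempty (TD.ModEq r)) {y : LaurentSeries ℚ}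
    (hy : y ∈ TD.FF ℚ N 1) :
    ∃ (k : ℕ) (D' : LaurentSeries ℚ), D' ∈ gaussRing ℓ K ∧ D' ∈ TD.FF ℚ N 1 ∧ D' ≠ 0 ∧
      D'⁻¹ ∈ ((IntermediateField.adjoin ℚ ({jq} : Set (LaurentSeries ℚ))).toSubfield.toSubring ⊓
        gaussRing ℓ K) ∧
      IsIntegral (polyRing ℓ (TD.Jd ℚ 1)) ((ℓ : LaurentSeries ℚ) ^ k * (D' * y)) := by
  obtain ⟨D, hD0, hint⟩ := (isAlgebraic_of_mem_FF ℓ N hN hME hy).exists_integral_multiple
  have hDne : (D : LaurentSeries ℚ) ≠ 0 := fun h => hD0 (Subtype.ext h)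
  obtain ⟨k, D', hDD', hD'R, hD'inv⟩ := exists_pow_mul_unit ℓ K (JdB ℓ K 1 one_ne_zero)
    (htrans_JdB ℓ K 1 one_ne_zero) (D := (D : LaurentSeries ℚ)) D.2 hDne
  have hD'0 : D' ≠ 0 := by
    rintro rfl
    exact hDne (by rw [hDD', mul_zero])
  have hD'adj : D' ∈ IntermediateField.adjoin ℚ ({TD.Jd ℚ 1} : Set (LaurentSeries ℚ)) :=
    polyRing_le_adjoin ℓ _ D' hD'R
  refine ⟨k, D', polyRing_le ℓ K (JdB ℓ K 1 one_ne_zero) hD'R, ?_, hD'0, ⟨?_, hD'inv⟩, ?_⟩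
  · have hle : IntermediateField.adjoin ℚ ({TD.Jd ℚ 1} : Set (LaurentSeries ℚ)) ≤
        TD.FF ℚ N 1 := by
      rw [IntermediateField.adjoin_le_iff, Set.singleton_subset_iff]
      exact Jd_mem_FF_self ℚ N 1
    exact hle hD'adj
  · have h := inv_mem hD'adj
    rw [Jd_one_rat] at h
    exact h
  · have h3 : (ℓ : LaurentSeries ℚ) ^ k * (D' * y) = D • y := by
      rw [← mul_assoc, ← hDD']
      rfl
    rw [h3]
    exact hint

/-- **Route T, final invariant**: `Tower.Good` at the full modular function field of level `N`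
with base ring `ℚ(j) ∩ B`. -/
theorem good_full (N : ℕ) [NeZero N] (hNK : (N : K) ≠ 0)
    (hME : ∀ r : ℕ, r.Prime → r ∣ N → Nonempty (TD.ModEq r))
    (hBC : ∀ r : ℕ, r.Prime → r ∣ N → TD.BaseCase r) :
    Tower.Good (gaussRing ℓ K) (ℓ : LaurentSeries ℚ) (red ℓ K)
      ((IntermediateField.adjoin ℚ ({jq} : Set (LaurentSeries ℚ))).toSubfield.toSubring ⊓
        gaussRing ℓ K)
      (modularFunctionFieldFull N).toSubfield (TD.FF K N 1).toSubfield := by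
  have hN : N ≠ 0 := NeZero.ne N
  have hG := good_FF_level ℓ K N hN hNK hME hBC
  rw [← TD.FF_rat_one N]
  refine ⟨hG.pi_mem, hG.bounded, hG.red_mem, ?_⟩
  have hbN : ∀ y ∈ (TD.FF ℚ 1 N).toSubfield,
      ∃ n : ℕ, (ℓ : LaurentSeries ℚ) ^ n * y ∈ gaussRing ℓ K := by
    intro y hy
    rw [FF_one ℚ N] at hy
    exact exists_pow_mul_mem_gaussRing ℓ K (JdB ℓ K N hN) (htrans_JdB ℓ K N hN) hy
  have hRNF : ∀ a ∈ polyRing ℓ (TD.Jd ℚ N), a ∈ (TD.FF ℚ 1 N).toSubfield := by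
    intro a ha
    rw [FF_one ℚ N]
    exact polyRing_le_adjoin ℓ _ a ha
  have hRN_ic : ∀ z ∈ (TD.FF ℚ 1 N).toSubfield,
      IsIntegral (polyRing ℓ (TD.Jd ℚ N)) z → z ∈ polyRing ℓ (TD.Jd ℚ N) := by
    intro z hz
    rw [FF_one ℚ N] at hz
    exact polyRing_integrallyClosed ℓ K (JdB ℓ K N hN) (htrans_JdB ℓ K N hN) z hz
  have hR1O1 : polyRing ℓ (TD.Jd ℚ 1) ≤
      (IntermediateField.adjoin ℚ ({jq} : Set (LaurentSeries ℚ))).toSubfield.toSubring ⊓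
        gaussRing ℓ K := by
    intro a ha
    refine ⟨?_, polyRing_le ℓ K (JdB ℓ K 1 one_ne_zero) ha⟩
    have := polyRing_le_adjoin ℓ _ a ha
    rw [Jd_one_rat] at this
    exact this
  exact integral_over_O1 (B := gaussRing ℓ K) (π := (ℓ : LaurentSeries ℚ))
    (natCast_ell_mem_gaussRing ℓ K) (natCast_ell_ne_zero' ℓ)
    (fun y hy h => inv_mem_gaussRing ℓ K hy h) (ell_inv_not_mem_gaussRing ℓ K)
    (F₀N := (TD.FF ℚ 1 N).toSubfield) (natCast_mem _ ℓ) hbN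
    (ON := (TD.FF ℚ 1 N).toSubfield.toSubring ⊓ gaussRing ℓ K)
    (RN := polyRing ℓ (TD.Jd ℚ N)) hRNF (fun a ha => ha.1) inf_le_right hRN_ic
    (polyRing_sat ℓ K (JdB ℓ K N hN) (htrans_JdB ℓ K N hN))
    (R1 := polyRing ℓ (TD.Jd ℚ 1)) hR1O1
    (fun y h => (isIntegral_polyRing_Jd_iff ℓ N hN hME y).mpr h)
    (fun y h => (isIntegral_polyRing_Jd_iff ℓ N hN hME y).mp h)
    (F := (TD.FF ℚ N 1).toSubfield) hG.pi_mem
    (fun y hy => exists_den ℓ K N hN hME hy) hG.integral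

end Concrete

/-- **Route T with a chosen residue field** `K` (any field of characteristic `ℓ` which is a
`ℤ_(ℓ)`-algebra). -/
theorem qExpPrinciple_of_field (N : ℕ) [NeZero N] (ℓ : ℕ) [Fact ℓ.Prime] (hℓN : ¬ ℓ ∣ N)
    (K : Type) [Field K] [Algebra (GaloisRep.ratLocalizedAt ℓ) K] [CharP K ℓ]
    (hME : ∀ r : ℕ, r.Prime → r ∣ N → Nonempty (TD.ModEq r))
    (hBC : ∀ r : ℕ, r.Prime → r ∣ N → TD.BaseCase r) :
    QExpPrinciple N ℓ {jFull N} ∧ QExpPrinciple N ℓ {(jFull N)⁻¹} := by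
  have hNK : (N : K) ≠ 0 := fun h => hℓN ((CharP.cast_eq_zero_iff K ℓ N).mp h)
  have hG := good_full ℓ K N hNK hME hBC
  exact ⟨hQ2_fin ℓ N K hG, hQ2_inf ℓ N K hG⟩

section ResidueField

variable (ℓ : ℕ) [hℓ : Fact ℓ.Prime]

theorem ell_inv_not_mem : ((ℓ : ℚ))⁻¹ ∉ GaloisRep.ratLocalizedAt ℓ := by
  intro h
  have h' : Nat.Coprime ((ℓ : ℚ)⁻¹).den ℓ := h
  rw [Rat.inv_natCast_den, if_neg hℓ.out.ne_zero, Nat.coprime_self] at h'
  exact hℓ.out.ne_one h'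

/-- `(ℓ)` is a maximal ideal of `ℤ_(ℓ)`. -/
theorem span_ell_isMaximal :
    (Ideal.span {((ℓ : ℕ) : GaloisRep.ratLocalizedAt ℓ)}).IsMaximal := by
  rw [Ideal.isMaximal_iff]
  constructor
  · rw [Ideal.mem_span_singleton]
    rintro ⟨r, hr⟩
    apply ell_inv_not_mem ℓ
    have h1 : (1 : ℚ) = (ℓ : ℚ) * (r : ℚ) := by
      have := congrArg Subtype.val hr
      simpa using this
    have h2 : (ℓ : ℚ)⁻¹ = r := by
      rw [eq_comm, ← mul_right_inj' (ell_ne_zero ℓ), ← h1, mul_inv_cancel₀ (ell_ne_zero ℓ)]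
    rw [h2]
    exact r.2
  · intro J x _ hx hxJ
    have hinv : (x : ℚ)⁻¹ ∈ GaloisRep.ratLocalizedAt ℓ := by
      apply inv_mem_of_not_mul ℓ x.2
      intro r hr hxr
      apply hx
      rw [Ideal.mem_span_singleton]
      exact ⟨⟨r, hr⟩, Subtype.ext (by simpa using hxr)⟩
    have hx0 : (x : ℚ) ≠ 0 := by
      intro h0
      apply hx
      have : x = 0 := Subtype.ext h0
      rw [this]
      exact Ideal.zero_mem _
    have h1 : (⟨(x : ℚ)⁻¹, hinv⟩ : GaloisRep.ratLocalizedAt ℓ) * x = 1 :=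
      Subtype.ext (inv_mul_cancel₀ hx0)
    rw [← h1]
    exact J.mul_mem_left _ hxJ

theorem ell_mem_nonunits :
    ((ℓ : ℕ) : GaloisRep.ratLocalizedAt ℓ) ∈ nonunits (GaloisRep.ratLocalizedAt ℓ) := by
  rw [mem_nonunits_iff]
  intro hu
  exact (span_ell_isMaximal ℓ).ne_top (Ideal.span_singleton_eq_top.mpr hu)

end ResidueField

/-- **Route T**: the `q`-expansion principle for both charts, from the modular equations and the
base cases at the primes dividing `N`. -/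
theorem qExpPrinciple_both (N : ℕ) [NeZero N] (ℓ : ℕ) [Fact ℓ.Prime] (hℓN : ¬ ℓ ∣ N)
    (hME : ∀ r : ℕ, r.Prime → r ∣ N → Nonempty (TD.ModEq r))
    (hBC : ∀ r : ℕ, r.Prime → r ∣ N → TD.BaseCase r) :
    QExpPrinciple N ℓ {jFull N} ∧ QExpPrinciple N ℓ {(jFull N)⁻¹} := by
  have hmax := span_ell_isMaximal ℓ
  let _ : Field (GaloisRep.ratLocalizedAt ℓ ⧸
      Ideal.span {((ℓ : ℕ) : GaloisRep.ratLocalizedAt ℓ)}) := Ideal.Quotient.field _
  have : CharP (GaloisRep.ratLocalizedAt ℓ ⧸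
      Ideal.span {((ℓ : ℕ) : GaloisRep.ratLocalizedAt ℓ)}) ℓ :=
    CharP.quotient _ ℓ (ell_mem_nonunits ℓ)
  exact qExpPrinciple_of_field N ℓ hℓN (GaloisRep.ratLocalizedAt ℓ ⧸
      Ideal.span {((ℓ : ℕ) : GaloisRep.ratLocalizedAt ℓ)}) hME hBC

/-- **Route T, finite chart.** -/
theorem qExpPrinciple_fin (N : ℕ) [NeZero N] (ℓ : ℕ) [Fact ℓ.Prime] (hℓN : ¬ ℓ ∣ N)
    (hME : ∀ r : ℕ, r.Prime → r ∣ N → Nonempty (TD.ModEq r))
    (hBC : ∀ r : ℕ, r.Prime → r ∣ N → TD.BaseCase r) :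
    QExpPrinciple N ℓ {jFull N} :=
  (qExpPrinciple_both N ℓ hℓN hME hBC).1

/-- **Route T, chart at infinity.** -/
theorem qExpPrinciple_inf (N : ℕ) [NeZero N] (ℓ : ℕ) [Fact ℓ.Prime] (hℓN : ¬ ℓ ∣ N)
    (hME : ∀ r : ℕ, r.Prime → r ∣ N → Nonempty (TD.ModEq r))
    (hBC : ∀ r : ℕ, r.Prime → r ∣ N → TD.BaseCase r) :
    QExpPrinciple N ℓ {(jFull N)⁻¹} :=
  (qExpPrinciple_both N ℓ hℓN hME hBC).2

end Fermat.Agent.S28.RouteT
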